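/-
S59lib / Toric / Genus  (helper8)  — Project I, block LLsq, brick NEW-3 (toric readout), part 2.

**THE REVERSE COUNT.**  `LSb.NodalCtx` only records `g + 1 ≤ g₁ + g₂ + s` ("there are enough nodes").
The reverse inequality follows from the other axioms: in the stable range the reduction of
`L(a P₁ + b P₂)` IS a nodal space (`exists_twist_stable` with `u = 1`), of dimension
`deg₁ + deg₂ + 2 - g₁ - g₂ - s`, while `dim L(a P₁ + b P₂) ≥ deg + 1 - g ≥ deg₁ + deg₂ + 1 - g`
(Riemann's inequality and (N1)).  Hence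

  `g + 1 = g₁ + g₂ + s`        (`NodalCtx.genus_eq`).
-/
import Fermat.Agent.LSb.Core.Structure

set_option autoImplicit false
set_option linter.unusedSectionVars false

noncomputable section

namespace Fermat.Agent.S59lib.Toric

open AlgebraicCurve Module Fermat.Agent.LSb Fermat.Agent.S18lib

variable {L : Type*} [Field L] {A : ValuationSubring L}
variable {F : Type*} [Field F] [Algebra L F]
variable {F₁ F₂ : Type*} [Field F₁] [Field F₂]
variable [Algebra (IsLocalRing.ResidueField A) F₁] [Algebra (IsLocalRing.ResidueField A) F₂]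

local notation "k" => IsLocalRing.ResidueField A

variable {D : NodalDatum A F F₁ F₂} {g g₁ g₂ : ℕ}

/-- **the reverse count**: a nodal context has at most `g + 1 - g₁ - g₂` nodes -/
theorem le_count (C : NodalCtx D g g₁ g₂) : g₁ + g₂ + D.s ≤ g + 1 := by
  set N : ℕ := 2 * g₁ + 2 * g₂ + D.s with hN
  have hst : D.Stable g₁ g₂ (N : ℕ) (N : ℕ) :=
    C.stable_of_le_fst (by rw [hN]; push_cast; exact le_rfl) (Int.natCast_nonneg N)
  have hE : ∀ P : Place L F, ((1 : ℕ) : ℤ) * (0 : Divisor L F) P = P.ord (1 : F) := by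
    intro P
    simp
  obtain ⟨lam, -, hlam⟩ := C.exists_twist_stable (n := 1) one_pos (IsKummerUnit.one D 1) hE
    (map_zero _) hst
  rw [zero_add] at hlam
  have := C.hF.finiteDimensional (D.chartDiv (N : ℕ) (N : ℕ))
  have h1 := NodalDatum.finrank_redSub C.hD (riemannRochSpace (D.chartDiv (N : ℕ) (N : ℕ)))
  rw [hlam] at h1
  have h2 := Core.finrank_nodalSpace C.hF₁ C.hF₂ C.x₂_injective lam (D.chartDiv₁ N N)
    (D.chartDiv₂ N N) (C.chartDiv₁_x₁ N N) (C.chartDiv₂_x₂ N N)
    (by have := hst.1; have hs : (0 : ℤ) ≤ D.s := Int.natCast_nonneg _; linarith) hst.2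
  have h3 := C.hF.riemann_le (D.chartDiv (N : ℕ) (N : ℕ))
  rw [h1] at h2
  rw [D.degree_chartDiv] at h3
  rw [D.degree_chartDiv₁, D.degree_chartDiv₂] at h2
  have hN0 : (0 : ℤ) ≤ (N : ℕ) := Int.natCast_nonneg N
  have h4 := mul_le_mul_of_nonneg_left C.deg_Q₁_le hN0
  have h5 := mul_le_mul_of_nonneg_left C.deg_Q₂_le hN0
  have h6 : (g₁ : ℤ) + g₂ + D.s ≤ g + 1 := by linarith
  exact_mod_cast h6

/-- **the genus formula of a nodal context** -/
theorem genus_eq (C : NodalCtx D g g₁ g₂) : g + 1 = g₁ + g₂ + D.s :=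
  le_antisymm C.count (le_count C)

end Fermat.Agent.S59lib.Toric

end
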