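/-
S59lib / Toric / NodeRel  (helper8)  — Project I, block LLsq, brick NEW-3 (toric readout), part 1.

**THE NODE RELATION.**  For an annulus datum `D` with the slope law (per-annulus conservation
`m₁ + m₂ = annDeg c h`), the two component maps of `S44lib/Kap/CMap` are opposite:

  `cMap₁ x c + cMap₂ x c = 0`   in `ZMod m`,  for every `x ∈ J[m]` and every node `c`.

[`x = [D₀]`, `m • D₀ = div h`: the node orders `m₁ m₂` of the normalised reductions of `h` satisfy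
`m₁ + m₂ = Σ_{P ∈ annulus c} ord_P h = m · Σ_P D₀ P`.]

Consequence (`ker_cMap₁_eq_Jf`): the kernel of `cMap₁` is the finite part `Jf`.
-/
import Fermat.Agent.S44lib.Ann.Law
import Fermat.Agent.S44lib.Kap.Main

set_option autoImplicit false
set_option linter.unusedSectionVars false

noncomputable section

namespace Fermat.Agent.S59lib.Toric

open Fermat.Agent.S18lib AlgebraicCurve Fermat.Agent.LSb Fermat.Agent.S33lib Fermat.Agent.S44lib

variable {L : Type*} [Field L] {A : ValuationSubring L}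
variable {F : Type*} [Field F] [Algebra L F] [HasPrincipalDivisors L F]

local notation "k" => IsLocalRing.ResidueField A

variable {F₁ F₂ : Type*} [Field F₁] [Field F₂]
variable [Algebra (IsLocalRing.ResidueField A) F₁] [Algebra (IsLocalRing.ResidueField A) F₂]
variable [HasPrincipalDivisors (IsLocalRing.ResidueField A) F₁]
  [HasPrincipalDivisors (IsLocalRing.ResidueField A) F₂]

variable {D : Ann.AnnDatum A F F₁ F₂}

/-- an `m`-torsion class `[D₀]` has a Kummer function -/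
theorem exists_kummerFun {m : ℕ} (x : Pic0.torsion L F m)
    (D₀ : Divisor.degZero (K := L) (F := F)) (hx : Pic0.mk D₀ = (x : Pic0 L F)) :
    ∃ h : F, h ≠ 0 ∧ ∀ P : Place L F, P.ord h = (m : ℤ) * (D₀ : Divisor L F) P := by
  have h0 : (m : ℤ) • (x : Pic0 L F) = 0 := Pic0.mem_torsion.1 x.2
  rw [← hx] at h0
  have h1 : Pic0.mk ((m : ℤ) • D₀) = 0 := h0
  have h2 := (QuotientAddGroup.eq_zero_iff _).1 h1
  rw [AddSubgroup.mem_addSubgroupOf] at h2
  obtain ⟨z, hz0, hz⟩ := h2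
  refine ⟨z, hz0, fun P => ?_⟩
  rw [← hz P]
  simp

/-- the annulus degree of a function whose divisor is divisible by `m` is divisible by `m` -/
theorem dvd_annDeg {m : ℕ} {Dv : Divisor L F} {h : F}
    (hhdiv : ∀ P : Place L F, P.ord h = (m : ℤ) * Dv P) (c : Fin D.nod.s) :
    (m : ℤ) ∣ D.annDeg c h := by
  unfold Ann.AnnDatum.annDeg
  rw [Finsupp.sum]
  refine Finset.dvd_sum fun P hP => ?_
  have hP' := (D.mem_support_annDiv.1 hP).2
  rw [D.annDiv_apply_of_mem hP', hhdiv]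
  exact Dvd.intro _ rfl

/-- normalising constants and node orders on both components -/
theorem exists_all_slopes (D : Ann.AnnDatum A F F₁ F₂) {h : F} (hh0 : h ≠ 0) :
    ∃ (a₁ a₂ : L) (n₁ n₂ : Fin D.nod.s → ℤ), (∀ c, D.Slope₁ c h a₁ (n₁ c)) ∧
      ∀ c, D.Slope₂ c h a₂ (n₂ c) := by
  obtain ⟨e₁, he₁, hr₁⟩ := D.nod.V₁.exists_const_mul_redF_ne_zero hh0
  obtain ⟨e₂, he₂, hr₂⟩ := D.nod.V₂.exists_const_mul_redF_ne_zero hh0
  have hi₁ : (algebraMap L F e₁⁻¹)⁻¹ = algebraMap L F e₁ := by rw [map_inv₀, inv_inv]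
  have hi₂ : (algebraMap L F e₂⁻¹)⁻¹ = algebraMap L F e₂ := by rw [map_inv₀, inv_inv]
  refine ⟨e₁⁻¹, e₂⁻¹, fun c => (D.nod.x₁ c).ord (D.nod.V₁.redF ((algebraMap L F e₁⁻¹)⁻¹ * h)),
    fun c => (D.nod.x₂ c).ord (D.nod.V₂.redF ((algebraMap L F e₂⁻¹)⁻¹ * h)), fun c => ?_, fun c => ?_⟩
  · refine ⟨inv_ne_zero he₁, ?_, ?_, rfl⟩ <;> rw [hi₁]
    · exact D.nod.V₁.mem_of_redF_ne_zero hr₁
    · exact hr₁
  · refine ⟨inv_ne_zero he₂, ?_, ?_, rfl⟩ <;> rw [hi₂]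
    · exact D.nod.V₂.mem_of_redF_ne_zero hr₂
    · exact hr₂

variable {g g₁ g₂ : ℕ}

/-- **THE NODE RELATION**: the two component maps are opposite. -/
theorem cMap₁_add_cMap₂ (C : NodalCtx D.nod g g₁ g₂) (hlaw : D.SlopeLaw) (m : ℕ)
    (x : Pic0.torsion L F m) (c : Fin D.nod.s) :
    Kap.cMap₁ D.toNRedDatum C m x c + Kap.cMap₂ D.toNRedDatum C m x c = 0 := by
  obtain ⟨D₀, hx⟩ := Pic0.mk_surjective (x : Pic0 L F)
  obtain ⟨h, hh0, hhdiv⟩ := exists_kummerFun x D₀ hx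
  obtain ⟨a₁, a₂, n₁, n₂, hs₁, hs₂⟩ := exists_all_slopes D hh0
  have hord : ∀ (a : L), a ≠ 0 → ∀ P : Place L F,
      P.ord ((algebraMap L F a)⁻¹ * h) = (m : ℤ) * (D₀ : Divisor L F) P := by
    intro a ha P
    rw [P.ord_mul (inv_ne_zero ((_root_.map_ne_zero _).2 ha)) hh0, Place.ord_inv,
      S18lib.Cech.ord_const, neg_zero, zero_add, hhdiv]
  have hz₁ : (algebraMap L F a₁)⁻¹ * h ≠ 0 :=
    mul_ne_zero (inv_ne_zero ((_root_.map_ne_zero _).2 (hs₁ c).1)) hh0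
  have hz₂ : (algebraMap L F a₂)⁻¹ * h ≠ 0 :=
    mul_ne_zero (inv_ne_zero ((_root_.map_ne_zero _).2 (hs₂ c).1)) hh0
  rw [Kap.cMap₁_eq D.toNRedDatum C x hx hz₁ (hord a₁ (hs₁ c).1) (hs₁ c).2.2.1 c, (hs₁ c).2.2.2,
    Kap.cMap₂_eq D.toNRedDatum C x hx hz₂ (hord a₂ (hs₂ c).1) (hs₂ c).2.2.1 c, (hs₂ c).2.2.2]
  have hsum := (hlaw h hh0 c a₁ a₂ (n₁ c) (n₂ c) (hs₁ c) (hs₂ c)).1
  rw [← Int.cast_add, hsum]
  exact (ZMod.intCast_zmod_eq_zero_iff_dvd _ m).2 (dvd_annDeg hhdiv c)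

/-- the second component map is the negative of the first -/
theorem cMap₂_eq_neg (C : NodalCtx D.nod g g₁ g₂) (hlaw : D.SlopeLaw) (m : ℕ)
    (x : Pic0.torsion L F m) :
    Kap.cMap₂ D.toNRedDatum C m x = -Kap.cMap₁ D.toNRedDatum C m x := by
  funext c
  rw [Pi.neg_apply, eq_neg_iff_add_eq_zero, add_comm]
  exact cMap₁_add_cMap₂ C hlaw m x c

/-- **the kernel of `cMap₁` is the finite part** -/
theorem ker_cMap₁_eq_Jf (C : NodalCtx D.nod g g₁ g₂) (hlaw : D.SlopeLaw) (m : ℕ) :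
    (Kap.cMap₁ D.toNRedDatum C m).ker = Kap.Jf D.toNRedDatum C m := by
  ext x
  rw [Kap.mem_Jf, AddMonoidHom.mem_ker]
  constructor
  · intro h
    exact ⟨h, by rw [cMap₂_eq_neg C hlaw, h, neg_zero]⟩
  · exact fun h => h.1

end Fermat.Agent.S59lib.Toric

end
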