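/-
S59lib / Toric / Count  (helper8)  — Project I, block LLsq, brick NEW-3 (toric readout), part 3.

**THE TORIC COUNT.**  For an annulus datum `D` with the slope law, a nodal context
`C : NodalCtx D.nod g g₁ g₂` and `n > 0` such that `L` has `n`-th roots:

  `|J[n]| ≤ |toricPart D.nod n| · n ^ (s - 1) · |Pic⁰(F₁)[n]| · |Pic⁰(F₂)[n]|`        (`card_torsion_le`).

[`cMap₁ : J[n] → (ℤ/n)^s` has image in the hyperplane `Σ = 0` and kernel `Jf` (node relation);
`(red₁, red₂) : Jf → Pic⁰(F₁)[n] × Pic⁰(F₂)[n]` has kernel inside the toric part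
(`redCl_eq_zero_iff` + `mem_toricPart_of_kTrivCl`).]

With `|J[n]| = n ^ (2 g)`, `|Pic⁰(Fᵢ)[n]| ≤ n ^ (2 gᵢ)` and the genus formula `g + 1 = g₁ + g₂ + s`:

  `n ^ (s - 1) ≤ |toricPart D.nod n|`                                             (`pow_le_card_toricPart`).
-/
import Fermat.Agent.S59lib.Toric.NodeRel
import Fermat.Agent.S59lib.Toric.Genus
import Fermat.Agent.S43lib.B0.Toric.Ker

set_option autoImplicit false
set_option linter.unusedSectionVars false

noncomputable section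

namespace Fermat.Agent.S59lib.Toric

open Fermat.Agent.S18lib AlgebraicCurve Fermat.Agent.LSb Fermat.Agent.S33lib Fermat.Agent.S44lib
open Fermat.Agent.S43lib.B0

/-! ### abstract counting -/

/-- a homomorphism from a finite group whose values lie in a finite set `S`:
`|G| ≤ |ker f| · |S|` -/
theorem card_le_card_ker_mul {G H : Type*} [AddCommGroup G] [AddCommGroup H] [Finite G]
    (f : G →+ H) (S : Set H) (hS : S.Finite) (hf : ∀ x, f x ∈ S) :
    Nat.card G ≤ Nat.card f.ker * Nat.card S := by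
  have h1 : Nat.card G = Nat.card (G ⧸ f.ker) * Nat.card f.ker :=
    AddSubgroup.card_eq_card_quotient_mul_card_addSubgroup f.ker
  have h2 : Nat.card (G ⧸ f.ker) = Nat.card f.range :=
    Nat.card_congr (QuotientAddGroup.quotientKerEquivRange f).toEquiv
  have hSfin : Finite S := hS.to_subtype
  have h3 : Nat.card f.range ≤ Nat.card S := by
    refine Nat.card_le_card_of_injective (fun y : f.range => (⟨y.1, ?_⟩ : S)) ?_
    · obtain ⟨x, hx⟩ := y.2
      rw [← hx]
      exact hf x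
    · intro a b hab
      exact Subtype.ext (congrArg (fun z : S => (z : H)) hab)
  rw [h1, h2, mul_comm]
  exact Nat.mul_le_mul_left _ h3

/-- the hyperplane `Σ v = 0` of `(ℤ/n)^ι` has at most `n ^ (|ι| - 1)` elements -/
theorem card_sum_eq_zero_le {ι : Type*} [Fintype ι] [DecidableEq ι] (c₀ : ι) (n : ℕ) [NeZero n] :
    Nat.card {v : ι → ZMod n | ∑ c, v c = 0} ≤ n ^ (Fintype.card ι - 1) := by
  classical
  have hcard : Nat.card ({c : ι // c ≠ c₀} → ZMod n) = n ^ (Fintype.card ι - 1) := by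
    rw [Nat.card_fun, Nat.card_zmod, Nat.card_eq_fintype_card]
    congr 1
    exact Set.card_ne_eq c₀
  rw [← hcard]
  refine Nat.card_le_card_of_injective
    (fun v : {v : ι → ZMod n | ∑ c, v c = 0} => fun c : {c : ι // c ≠ c₀} => v.1 c.1) ?_
  intro v w hvw
  apply Subtype.ext
  funext c
  by_cases hc : c = c₀
  · subst hc
    have hv : ∑ c', v.1 c' = 0 := v.2
    have hw : ∑ c', w.1 c' = 0 := w.2
    rw [← Finset.add_sum_erase Finset.univ _ (Finset.mem_univ c)] at hv hw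
    have hrest : ∑ x ∈ Finset.univ.erase c, v.1 x = ∑ x ∈ Finset.univ.erase c, w.1 x := by
      refine Finset.sum_congr rfl fun x hx => ?_
      have hxc : x ≠ c := Finset.ne_of_mem_erase hx
      exact congrFun hvw ⟨x, hxc⟩
    rw [hrest] at hv
    exact add_right_cancel (hv.trans hw.symm)
  · exact congrFun hvw ⟨c, hc⟩

/-! ### the count for an annulus datum -/

variable {L : Type*} [Field L] {A : ValuationSubring L}
variable {F : Type*} [Field F] [Algebra L F] [HasPrincipalDivisors L F]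

local notation "k" => IsLocalRing.ResidueField A

variable {F₁ F₂ : Type*} [Field F₁] [Field F₂]
variable [Algebra (IsLocalRing.ResidueField A) F₁] [Algebra (IsLocalRing.ResidueField A) F₂]
variable [HasPrincipalDivisors (IsLocalRing.ResidueField A) F₁]
  [HasPrincipalDivisors (IsLocalRing.ResidueField A) F₂]

variable {D : Ann.AnnDatum A F F₁ F₂} {g g₁ g₂ : ℕ}

/-- a class of the finite part with trivial reductions on both components is toric -/
theorem mem_toricPart_of_red_eq_zero (C : NodalCtx D.nod g g₁ g₂)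
    (hne : D.nod.V₁.O ≠ D.nod.V₂.O) {n : ℕ} (hn : 0 < n) (hroot : ∀ c : L, ∃ d : L, d ^ n = c)
    (x : Kap.Jf D.toNRedDatum C n) (h₁ : Kap.red₁ D.toNRedDatum C hn x = 0)
    (h₂ : Kap.red₂ D.toNRedDatum C hn x = 0) :
    ((x : Pic0.torsion L F n) : Pic0 L F) ∈ toricPart D.nod n := by
  obtain ⟨D₀, hx⟩ := Pic0.mk_surjective ((x : Pic0.torsion L F n) : Pic0 L F)
  obtain ⟨z, hz0, hz⟩ := exists_kummerFun (x : Pic0.torsion L F n) D₀ hx
  have hd₁ : Kap.KapDvd D.nod.V₁ n (Pic0.mk D₀) := by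
    rw [hx]; exact Kap.kapDvd₁_of_mem_Jf D.toNRedDatum C x.2
  have hd₂ : Kap.KapDvd D.nod.V₂ n (Pic0.mk D₀) := by
    rw [hx]; exact Kap.kapDvd₂_of_mem_Jf D.toNRedDatum C x.2
  have e₁ : Kap.redCl D.nod.V₁ n (Pic0.mk D₀) = 0 := by
    rw [hx, ← Kap.coe_red₁ D.toNRedDatum C hn x, h₁]; rfl
  have e₂ : Kap.redCl D.nod.V₂ n (Pic0.mk D₀) = 0 := by
    rw [hx, ← Kap.coe_red₂ D.toNRedDatum C hn x, h₂]; rfl
  have k₁ := (Kap.redCl_eq_zero_iff C.hF C.hF₁ D.nod.V₁ hn hz0 hz hd₁).1 e₁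
  have k₂ := (Kap.redCl_eq_zero_iff C.hF C.hF₂ D.nod.V₂ hn hz0 hz hd₂).1 e₂
  exact mem_toricPart_of_kTrivCl C.rankOne hne hn hroot ⟨D₀, z, hx, hz0, hz, k₁, k₂⟩

/-- **the toric count, raw form** -/
theorem card_torsion_le (C : NodalCtx D.nod g g₁ g₂) (hlaw : D.SlopeLaw)
    (hne : D.nod.V₁.O ≠ D.nod.V₂.O) {n : ℕ} (hn : 0 < n) (hroot : ∀ c : L, ∃ d : L, d ^ n = c)
    [Finite (Pic0.torsion L F n)] [Finite (Pic0.torsion k F₁ n)] [Finite (Pic0.torsion k F₂ n)] :
    Nat.card (Pic0.torsion L F n) ≤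
      Nat.card (toricPart D.nod n) * (Nat.card (Pic0.torsion k F₁ n) * Nat.card (Pic0.torsion k F₂ n)) *
        n ^ (D.nod.s - 1) := by
  classical
  have : NeZero n := ⟨hn.ne'⟩
  obtain ⟨c₀⟩ : Nonempty (Fin D.nod.s) := ⟨⟨0, C.s_pos⟩⟩
  -- step 1: the component map
  have hS : {v : Fin D.nod.s → ZMod n | ∑ c, v c = 0}.Finite := Set.toFinite _
  have s1 := card_le_card_ker_mul (Kap.cMap₁ D.toNRedDatum C n) _ hS
    (fun x => Kap.sum_cMap₁ D.toNRedDatum C n x)
  have s1' := card_sum_eq_zero_le c₀ n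
  rw [Fintype.card_fin] at s1'
  rw [ker_cMap₁_eq_Jf C hlaw n] at s1
  -- step 2: the reductions
  set r : Kap.Jf D.toNRedDatum C n →+ Pic0.torsion k F₁ n × Pic0.torsion k F₂ n :=
    (Kap.red₁ D.toNRedDatum C hn).prod (Kap.red₂ D.toNRedDatum C hn) with hr
  have s2 := card_le_card_ker_mul r Set.univ Set.finite_univ (fun _ => Set.mem_univ _)
  rw [Nat.card_congr (Equiv.Set.univ _), Nat.card_prod] at s2
  -- step 3: the kernel of the reductions is toric
  haveI : Finite (toricPart D.nod n) :=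
    Finite.of_injective (fun t : toricPart D.nod n =>
      (⟨t.1, toricPart_le_torsion D.nod n t.2⟩ : Pic0.torsion L F n))
      fun a b hab => Subtype.ext (congrArg (fun z : Pic0.torsion L F n => (z : Pic0 L F)) hab)
  have s3 : Nat.card r.ker ≤ Nat.card (toricPart D.nod n) := by
    refine Nat.card_le_card_of_injective
      (fun x : r.ker => (⟨((x.1 : Pic0.torsion L F n) : Pic0 L F), ?_⟩ : toricPart D.nod n)) ?_
    · have hx : r x.1 = 0 := AddMonoidHom.mem_ker.1 x.2
      have hx' : (Kap.red₁ D.toNRedDatum C hn x.1, Kap.red₂ D.toNRedDatum C hn x.1) = 0 := hx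
      rw [Prod.mk_eq_zero] at hx'
      exact mem_toricPart_of_red_eq_zero C hne hn hroot x.1 hx'.1 hx'.2
    · intro a b hab
      have := congrArg (fun z : toricPart D.nod n => (z : Pic0 L F)) hab
      exact Subtype.ext (Subtype.ext (Subtype.ext this))
  calc Nat.card (Pic0.torsion L F n)
      ≤ Nat.card (Kap.Jf D.toNRedDatum C n) *
          Nat.card {v : Fin D.nod.s → ZMod n | ∑ c, v c = 0} := s1
    _ ≤ (Nat.card r.ker * (Nat.card (Pic0.torsion k F₁ n) * Nat.card (Pic0.torsion k F₂ n))) *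
          n ^ (D.nod.s - 1) := Nat.mul_le_mul s2 s1'
    _ ≤ _ := by
        refine Nat.mul_le_mul_right _ (Nat.mul_le_mul_right _ s3)

/-- **THE TORIC COUNT**: the toric part of `J[n]` has at least `n ^ (s - 1)` elements. -/
theorem pow_le_card_toricPart (C : NodalCtx D.nod g g₁ g₂) (hlaw : D.SlopeLaw)
    (hne : D.nod.V₁.O ≠ D.nod.V₂.O) {n : ℕ} (hn : 0 < n) (hroot : ∀ c : L, ∃ d : L, d ^ n = c)
    (hJ : n ^ (2 * g) ≤ Nat.card (Pic0.torsion L F n))
    (h₁ : Nat.card (Pic0.torsion k F₁ n) ≤ n ^ (2 * g₁)) [Finite (Pic0.torsion k F₁ n)]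
    (h₂ : Nat.card (Pic0.torsion k F₂ n) ≤ n ^ (2 * g₂)) [Finite (Pic0.torsion k F₂ n)] :
    n ^ (D.nod.s - 1) ≤ Nat.card (toricPart D.nod n) := by
  haveI : Finite (Pic0.torsion L F n) := by
    refine Nat.finite_of_card_ne_zero fun h0 => ?_
    rw [h0] at hJ
    exact absurd hJ (not_le.2 (pow_pos hn _))
  have hc := card_torsion_le C hlaw hne hn hroot
  have hg := genus_eq C
  have hs := C.s_pos
  set s := D.nod.s with hsdef
  set T := Nat.card (toricPart D.nod n) with hT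
  have h12 : Nat.card (Pic0.torsion k F₁ n) * Nat.card (Pic0.torsion k F₂ n) ≤
      n ^ (2 * g₁ + 2 * g₂) := by
    rw [pow_add]
    exact Nat.mul_le_mul h₁ h₂
  have h3 : n ^ (2 * g) ≤ T * n ^ (2 * g₁ + 2 * g₂) * n ^ (s - 1) :=
    hJ.trans (hc.trans (Nat.mul_le_mul_right _ (Nat.mul_le_mul_left _ h12)))
  have h4 : 2 * g = (s - 1) + (2 * g₁ + 2 * g₂) + (s - 1) := by omega
  rw [h4, pow_add, pow_add] at h3
  have hpos : 0 < n ^ (2 * g₁ + 2 * g₂) * n ^ (s - 1) := Nat.mul_pos (pow_pos hn _) (pow_pos hn _)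
  rw [mul_assoc, mul_assoc] at h3
  exact Nat.le_of_mul_le_mul_right h3 hpos

end Fermat.Agent.S59lib.Toric

end
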