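/-
S59lib / Toric / Period  (helper8)  — Project I, block LLsq, brick NEW-3 (toric readout), part 4.

**THE TWIST (PERIOD) OF A KUMMER DIVISOR.**  For a nodal context `C : NodalCtx D g g₁ g₂`:

  `HasTwist D g₁ g₂ E lam` :  for every stable `(a, b)` the reduction of `L(E + a P₁ + b P₂)` IS the
  nodal space with twist `lam : Fin s → k` on the reduced chart divisors.

* `exists_hasTwist`     : `n E = div u`, `u` a Kummer unit ⟹ `E` has a twist, all entries `≠ 0`;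
* `HasTwist.unique`, `HasTwist.zero_eq` (`E = 0` has twist `1`), `HasTwist.add_eq` (twists multiply),
  `HasTwist.sub_eq`;
* `pow_twist`           : `b₁ = b₂ · lam c ^ n` (`bᵢ` the constant reductions of `u`);
* **`principal_of_hasTwist_const`** : a Kummer divisor whose twist is a CONSTANT vector is principal
  (Čech core, `CechCoreStatement`).
-/
import Fermat.Agent.LSb.Core.Unipotent
import Fermat.Agent.S43lib.B0.Toric.Swap

set_option autoImplicit false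
set_option linter.unusedSectionVars false

noncomputable section

namespace Fermat.Agent.S59lib.Toric

open AlgebraicCurve Module Fermat.Agent.LSb Fermat.Agent.S18lib Fermat.Agent.S43lib.B0

variable {L : Type*} [Field L] {A : ValuationSubring L}
variable {F : Type*} [Field F] [Algebra L F]
variable {F₁ F₂ : Type*} [Field F₁] [Field F₂]
variable [Algebra (IsLocalRing.ResidueField A) F₁] [Algebra (IsLocalRing.ResidueField A) F₂]

local notation "k" => IsLocalRing.ResidueField A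

/-- **the twist of a divisor**: in the stable range the reduction of `L(E + a P₁ + b P₂)` is the
nodal space with twist `lam` -/
def HasTwist (D : NodalDatum A F F₁ F₂) (g₁ g₂ : ℕ) (E : Divisor L F) (lam : Fin D.s → k) : Prop :=
  ∀ a b : ℕ, D.Stable g₁ g₂ a b →
    D.redSub (riemannRochSpace (E + D.chartDiv a b)) =
      Core.nodalSpace D.x₁ D.x₂ lam (D.chartDiv₁ a b) (D.chartDiv₂ a b)

variable {D : NodalDatum A F F₁ F₂} {g g₁ g₂ : ℕ}

/-- the standard stable exponent -/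
def stabN (D : NodalDatum A F F₁ F₂) (g₁ g₂ : ℕ) : ℕ := 2 * g₁ + 2 * g₂ + D.s

theorem stable_stabN (C : NodalCtx D g g₁ g₂) (a b : ℕ) (ha : stabN D g₁ g₂ ≤ a) :
    D.Stable g₁ g₂ a b :=
  C.stable_of_le_fst (by unfold stabN at ha; exact_mod_cast ha) (Int.natCast_nonneg b)

/-- a Kummer divisor has a twist -/
theorem exists_hasTwist (C : NodalCtx D g g₁ g₂) {n : ℕ} (hn : 0 < n) {u : F}
    (hu : IsKummerUnit D n u) {E : Divisor L F} (hE : ∀ P, (n : ℤ) * E P = P.ord u)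
    (hdeg : Divisor.degree E = 0) :
    ∃ lam : Fin D.s → k, (∀ c, lam c ≠ 0) ∧ HasTwist D g₁ g₂ E lam := by
  set N := stabN D g₁ g₂ with hN
  obtain ⟨lam, hlam0, hlam⟩ := C.exists_twist_stable hn hu hE hdeg (stable_stabN C N N le_rfl)
  refine ⟨lam, hlam0, fun a b hst => ?_⟩
  obtain ⟨lam₁, -, h₁⟩ := C.exists_twist_stable hn hu hE hdeg hst
  obtain ⟨lam₂, -, h₂⟩ := C.exists_twist_stable hn hu hE hdeg
    (stable_stabN C (max a N) (max b N) (le_max_right a N))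
  have e1 : lam₁ = lam₂ :=
    C.twist_unique (le_max_left a N) (le_max_left b N) hst h₁ h₂
  have e2 : lam = lam₂ :=
    C.twist_unique (le_max_right a N) (le_max_right b N) (stable_stabN C N N le_rfl) hlam h₂
  rw [h₁, e1, ← e2]

/-- in the stable range, a section of the twisted nodal space with value `1` at every `x₁ c`
lifts to the lattice -/
theorem HasTwist.exists_lift (C : NodalCtx D g g₁ g₂) {E : Divisor L F} {lam : Fin D.s → k}
    (h : HasTwist D g₁ g₂ E lam) {a b : ℕ} (hst : D.Stable g₁ g₂ a b) :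
    ∃ f : F, f ∈ riemannRochSpace (E + D.chartDiv a b) ∧ f ∈ D.O ∧
      ∀ c, D.V₁.redF f ∈ (D.x₁ c).toValuationSubring ∧ D.V₂.redF f ∈ (D.x₂ c).toValuationSubring ∧
        Core.valAt (D.x₁ c) (D.V₁.redF f) = 1 ∧ Core.valAt (D.x₂ c) (D.V₂.redF f) = lam c := by
  obtain ⟨φ, hφ, hval⟩ := Core.exists_mem_nodalSpace_valAt C.hF₁ C.hF₂ C.x₁_injective
    C.x₂_injective lam (D.chartDiv₁ a b) (D.chartDiv₂ a b) (C.chartDiv₁_x₁ a b)
    (C.chartDiv₂_x₂ a b) hst.1 hst.2 (fun _ => 1)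
  have hφ' : φ ∈ D.redSub (riemannRochSpace (E + D.chartDiv a b)) := by rw [h a b hst]; exact hφ
  obtain ⟨f, hfW, hfO, rfl⟩ := hφ'
  refine ⟨f, hfW, hfO, fun c => ⟨?_, ?_, ?_, ?_⟩⟩
  · exact Core.mem_of_mem_rr (C.chartDiv₁_x₁ a b c).le hφ.1
  · exact Core.mem_of_mem_rr (C.chartDiv₂_x₂ a b c).le hφ.2.1
  · exact (hval c).1
  · have := (hval c).2
    rwa [mul_one] at this

/-- the twist is unique -/
theorem HasTwist.unique (C : NodalCtx D g g₁ g₂) {E : Divisor L F} {lam lam' : Fin D.s → k}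
    (h : HasTwist D g₁ g₂ E lam) (h' : HasTwist D g₁ g₂ E lam') : lam = lam' := by
  set N := stabN D g₁ g₂ with hN
  have hst := stable_stabN C N N le_rfl
  exact C.twist_unique le_rfl le_rfl hst (h N N hst) (h' N N hst)

theorem chartDiv_add_nat (D : NodalDatum A F F₁ F₂) (a b a' b' : ℕ) :
    D.chartDiv (a : ℕ) (b : ℕ) + D.chartDiv (a' : ℕ) (b' : ℕ) =
      D.chartDiv ((a + a' : ℕ) : ℕ) ((b + b' : ℕ) : ℕ) := by
  unfold NodalDatum.chartDiv
  push_cast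
  rw [add_smul, add_smul]
  abel

/-- **twists multiply** -/
theorem HasTwist.add_eq (C : NodalCtx D g g₁ g₂) {E E' : Divisor L F}
    {lam lam' lam'' : Fin D.s → k} (h : HasTwist D g₁ g₂ E lam) (h' : HasTwist D g₁ g₂ E' lam')
    (h'' : HasTwist D g₁ g₂ (E + E') lam'') : lam'' = lam * lam' := by
  set N := stabN D g₁ g₂ with hN
  have hst := stable_stabN C N N le_rfl
  have hst2 := stable_stabN C (N + N) (N + N) (Nat.le_add_right N N)
  obtain ⟨f, hfW, hfO, hf⟩ := h.exists_lift C hst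
  obtain ⟨f', hfW', hfO', hf'⟩ := h'.exists_lift C hst
  have hmul : f * f' ∈ riemannRochSpace (E + E' + D.chartDiv ((N + N : ℕ) : ℕ) ((N + N : ℕ) : ℕ)) := by
    have := S18lib.Cech.mul_mem_rr hfW hfW'
    rw [← chartDiv_add_nat]
    have e : E + D.chartDiv (N : ℕ) (N : ℕ) + (E' + D.chartDiv (N : ℕ) (N : ℕ)) =
        E + E' + (D.chartDiv (N : ℕ) (N : ℕ) + D.chartDiv (N : ℕ) (N : ℕ)) := by abel
    rwa [e] at this
  have hO : f * f' ∈ D.O := D.O.mul_mem hfO hfO'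
  have hmem : D.redF (f * f') ∈ Core.nodalSpace D.x₁ D.x₂ lam'' (D.chartDiv₁ ((N + N : ℕ) : ℕ)
      ((N + N : ℕ) : ℕ)) (D.chartDiv₂ ((N + N : ℕ) : ℕ) ((N + N : ℕ) : ℕ)) := by
    rw [← h'' (N + N) (N + N) hst2]
    exact ⟨f * f', hmul, hO, rfl⟩
  funext c
  have h3 := ((Core.gluedAt_iff C.hF₁.deg_eq_one C.hF₂.deg_eq_one c _ _).1 (hmem.2.2 c)).2.2
  have hO₁ := (NodalDatum.mem_O.1 hfO)
  have hO₁' := (NodalDatum.mem_O.1 hfO')
  have f1 : (D.redF (f * f')).1 = D.V₁.redF f * D.V₁.redF f' := D.V₁.redF_mul hO₁.1 hO₁'.1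
  have f2 : (D.redF (f * f')).2 = D.V₂.redF f * D.V₂.redF f' := D.V₂.redF_mul hO₁.2 hO₁'.2
  obtain ⟨m1, m2, v1, v2⟩ := hf c
  obtain ⟨m1', m2', v1', v2'⟩ := hf' c
  rw [f1, f2, Core.valAt_mul _ (C.hF₁.deg_eq_one _) m1 m1',
    Core.valAt_mul _ (C.hF₂.deg_eq_one _) m2 m2', v1, v2, v1', v2', mul_one, mul_one] at h3
  rw [Pi.mul_apply, h3]

/-- the zero divisor has twist `1` -/
theorem HasTwist.zero_eq (C : NodalCtx D g g₁ g₂) {lam : Fin D.s → k}
    (h : HasTwist D g₁ g₂ (0 : Divisor L F) lam) : lam = 1 := by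
  set N := stabN D g₁ g₂ with hN
  have hst := stable_stabN C N N le_rfl
  have h1 : (1 : F) ∈ riemannRochSpace ((0 : Divisor L F) + D.chartDiv (N : ℕ) (N : ℕ)) := by
    rw [zero_add]
    refine S18lib.Cech.one_mem_rr fun P => ?_
    rw [D.chartDiv_apply]
    have h1 := C.P₁_nonneg P
    have h2 := C.P₂_nonneg P
    rw [Finsupp.zero_apply] at h1 h2
    have hN0 : (0 : ℤ) ≤ (N : ℕ) := Int.natCast_nonneg N
    exact add_nonneg (mul_nonneg hN0 h1) (mul_nonneg hN0 h2)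
  have hmem : D.redF (1 : F) ∈ Core.nodalSpace D.x₁ D.x₂ lam (D.chartDiv₁ (N : ℕ) (N : ℕ))
      (D.chartDiv₂ (N : ℕ) (N : ℕ)) := by
    rw [← h N N hst]
    exact ⟨1, h1, D.O.one_mem, rfl⟩
  funext c
  have h3 := ((Core.gluedAt_iff C.hF₁.deg_eq_one C.hF₂.deg_eq_one c _ _).1 (hmem.2.2 c)).2.2
  have e : D.redF (1 : F) = 1 := Frame.redS_one
  rw [e] at h3
  have e1 : (1 : F₁ × F₂).1 = 1 := rfl
  have e2 : (1 : F₁ × F₂).2 = 1 := rfl
  rw [e1, e2, Core.valAt_one, Core.valAt_one, mul_one] at h3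
  rw [Pi.one_apply, ← h3]

/-- twists of a difference -/
theorem HasTwist.sub_eq (C : NodalCtx D g g₁ g₂) {E E' : Divisor L F}
    {lam lam' lam'' : Fin D.s → k} (h : HasTwist D g₁ g₂ E lam) (h' : HasTwist D g₁ g₂ E' lam')
    (h'' : HasTwist D g₁ g₂ (E - E') lam'') : lam = lam'' * lam' := by
  have e : E - E' + E' = E := sub_add_cancel E E'
  have h3 : HasTwist D g₁ g₂ (E - E' + E') lam := by rw [e]; exact h
  exact HasTwist.add_eq C h'' h' h3

/-- **the `n`-th power of the twist**: `b₁ = b₂ · lam c ^ n` -/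
theorem pow_twist (C : NodalCtx D g g₁ g₂) {n : ℕ} (hn : 0 < n) {u : F}
    (hu : IsKummerUnit D n u) {E : Divisor L F} (hE : ∀ P, (n : ℤ) * E P = P.ord u)
    {lam : Fin D.s → k} (h : HasTwist D g₁ g₂ E lam) {b₁ b₂ : k}
    (hb₁ : D.V₁.redF u = algebraMap k F₁ b₁) (hb₂ : D.V₂.redF u = algebraMap k F₂ b₂)
    (c : Fin D.s) : b₁ = b₂ * lam c ^ n := by
  set N := stabN D g₁ g₂ with hN
  have hst := stable_stabN C N N le_rfl
  obtain ⟨f, hfW, hfO, hf⟩ := h.exists_lift C hst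
  have hK : f ∈ D.KLat n u (N : ℕ) (N : ℕ) :=
    (NodalDatum.mem_KLat_iff hn hu.ne_zero hE _ _ f).2 ⟨hfW, hfO⟩
  have := C.glue_valAt hn hu hb₁ hb₂ hK c
  obtain ⟨-, -, v1, v2⟩ := hf c
  rw [v1, v2, one_pow, mul_one] at this
  exact this

/-- **a Kummer divisor with CONSTANT twist is principal** (Čech core) -/
theorem principal_of_hasTwist_const (C : NodalCtx D g g₁ g₂) (hcech : CechCoreStatement D g₁ g₂)
    {n : ℕ} (hn : (n : k) ≠ 0) {u : F} (hu : IsKummerUnit D n u) {E : Divisor L F}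
    (hE : ∀ P, (n : ℤ) * E P = P.ord u) {κ : k} (hκ : κ ≠ 0)
    (h : HasTwist D g₁ g₂ E (fun _ => κ)) :
    ∃ H : F, H ≠ 0 ∧ ∀ P : Place L F, E P = P.ord H := by
  have hn0 : n ≠ 0 := by
    rintro rfl
    exact hn (by simp)
  have hnpos : 0 < n := Nat.pos_of_ne_zero hn0
  have hnZ : (n : ℤ) ≠ 0 := by exact_mod_cast hn0
  set N := stabN D g₁ g₂ with hN
  have hst := stable_stabN C N N le_rfl
  obtain ⟨b₁, hb₁0, hb₁⟩ := hu.red₁
  obtain ⟨b₂, hb₂0, hb₂⟩ := hu.red₂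
  obtain ⟨c₀⟩ : Nonempty (Fin D.s) := ⟨⟨0, C.s_pos⟩⟩
  have hpow : b₁ = b₂ * κ ^ n := pow_twist C hnpos hu hE h hb₁ hb₂ c₀
  -- the pair `(1, κ)` lies in the twisted nodal space
  have hchart₁ : ∀ Q, 0 ≤ D.chartDiv₁ (N : ℕ) (N : ℕ) Q := by
    intro Q
    rw [D.chartDiv₁_apply]
    have h1 := C.Q₁₁_nonneg Q
    have h2 := C.Q₂₁_nonneg Q
    rw [Finsupp.zero_apply] at h1 h2
    have hN0 : (0 : ℤ) ≤ (N : ℕ) := Int.natCast_nonneg N
    exact add_nonneg (mul_nonneg hN0 h1) (mul_nonneg hN0 h2)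
  have hchart₂ : ∀ Q, 0 ≤ D.chartDiv₂ (N : ℕ) (N : ℕ) Q := by
    intro Q
    rw [D.chartDiv₂_apply]
    have h1 := C.Q₁₂_nonneg Q
    have h2 := C.Q₂₂_nonneg Q
    rw [Finsupp.zero_apply] at h1 h2
    have hN0 : (0 : ℤ) ≤ (N : ℕ) := Int.natCast_nonneg N
    exact add_nonneg (mul_nonneg hN0 h1) (mul_nonneg hN0 h2)
  have hpair : ((1 : F₁), algebraMap k F₂ κ) ∈ Core.nodalSpace D.x₁ D.x₂ (fun _ => κ)
      (D.chartDiv₁ (N : ℕ) (N : ℕ)) (D.chartDiv₂ (N : ℕ) (N : ℕ)) := by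
    refine ⟨S18lib.Cech.one_mem_rr hchart₁, S18lib.Cech.const_mem_rr hchart₂ κ, fun c => ?_⟩
    refine ⟨1, ?_, ?_⟩
    · show Core.VanishAt _ ((1 : F₁) - algebraMap k F₁ 1)
      rw [map_one, sub_self]
      exact Core.vanishAt_zero _
    · show Core.VanishAt _ (algebraMap k F₂ κ - algebraMap k F₂ (κ * 1))
      rw [mul_one, sub_self]
      exact Core.vanishAt_zero _
  rw [← h N N hst] at hpair
  obtain ⟨f, hfW, hfO, hfred⟩ := hpair
  have hfO' := NodalDatum.mem_O.1 hfO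
  have hf₁ : D.V₁.redF f = 1 := congrArg Prod.fst hfred
  have hf₂ : D.V₂.redF f = algebraMap k F₂ κ := congrArg Prod.snd hfred
  have hf0 : f ≠ 0 := by
    rintro rfl
    rw [D.V₁.redF_zero] at hf₁
    exact zero_ne_one hf₁
  have hfK : f ∈ D.KLat n u (N : ℕ) (N : ℕ) :=
    (NodalDatum.mem_KLat_iff hnpos hu.ne_zero hE _ _ f).2 ⟨hfW, hfO⟩
  -- the Kummer unit `z₀ = fⁿ u` reduces to `(b₁, b₁)`
  set z₀ : F := f ^ n * u with hz₀
  have hz₀0 : z₀ ≠ 0 := mul_ne_zero (pow_ne_zero n hf0) hu.ne_zero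
  have hr₁ : D.V₁.redF z₀ = algebraMap k F₁ b₁ := by
    rw [hz₀, D.V₁.redF_mul (D.V₁.O.pow_mem hfO'.1 n) hu.mem₁, D.V₁.redF_pow hfO'.1, hf₁, one_pow,
      one_mul, hb₁]
  have hr₂ : D.V₂.redF z₀ = algebraMap k F₂ b₁ := by
    rw [hz₀, D.V₂.redF_mul (D.V₂.O.pow_mem hfO'.2 n) hu.mem₂, D.V₂.redF_pow hfO'.2, hf₂, hb₂,
      ← map_pow, ← map_mul, hpow]
    congr 1
    ring
  have hKz₀ : IsKummerUnit D n z₀ := by
    refine ⟨hz₀0, fun P => ?_, ⟨b₁, hb₁0, hr₁⟩, ⟨b₁, hb₁0, hr₂⟩⟩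
    rw [hz₀, P.ord_mul (pow_ne_zero n hf0) hu.ne_zero, S18lib.Cech.ord_pow]
    exact dvd_add (Dvd.intro _ rfl) (hu.dvd_ord P)
  obtain ⟨a, ha0, hKa, e₁, e₂⟩ := exists_normalise hKz₀ hb₁0 hr₁ hr₂
  set z : F := algebraMap L F (a : L) * z₀ with hz
  have haF : algebraMap L F (a : L) ≠ 0 := (map_ne_zero _).2 ha0
  -- the twist of `z` is trivial
  obtain ⟨lamz, -, Hsubz, Heqz⟩ := C.exists_twist_all hnpos hKa
  have hlamz : lamz = 1 := by
    funext c
    obtain ⟨φ, hφ, hφval⟩ := Core.exists_mem_nodalSpace_valAt C.hF₁ C.hF₂ C.x₁_injective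
      C.x₂_injective lamz (D.chartDiv₁ (N : ℕ) (N : ℕ)) (D.chartDiv₂ (N : ℕ) (N : ℕ))
      (C.chartDiv₁_x₁ _ _) (C.chartDiv₂_x₂ _ _) hst.1 hst.2 (fun _ => 1)
    obtain ⟨h', hh', hh'φ⟩ := Heqz N N hst φ hφ
    have hh'O := NodalDatum.mem_O.1 hh'.1
    have e1 : D.V₁.redF h' = φ.1 := congrArg Prod.fst hh'φ
    have e2 : D.V₂.redF h' = φ.2 := congrArg Prod.snd hh'φ
    have r1 : φ.1 ∈ (D.x₁ c).toValuationSubring :=
      Core.mem_of_mem_rr (C.chartDiv₁_x₁ _ _ c).le hφ.1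
    have r2 : φ.2 ∈ (D.x₂ c).toValuationSubring :=
      Core.mem_of_mem_rr (C.chartDiv₂_x₂ _ _ c).le hφ.2.1
    -- `h' f ∈ KLat n u (N + N) (N + N)`
    have hprod : h' * f ∈ D.KLat n u ((N + N : ℕ) : ℕ) ((N + N : ℕ) : ℕ) := by
      refine ⟨D.O.mul_mem hh'.1 hfO, ?_⟩
      have h1 := hh'.2
      have e : (h' * f) ^ n * u = (algebraMap L F (a : L))⁻¹ * (h' ^ n * z) := by
        rw [hz, hz₀]
        field_simp
        ring
      rw [e]
      have h2 := Submodule.smul_mem _ ((a : L)⁻¹) h1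
      rw [Algebra.smul_def, map_inv₀] at h2
      refine S18lib.Cech.rr_mono (fun P => ?_) h2
      rw [Finsupp.smul_apply, Finsupp.smul_apply, smul_eq_mul, smul_eq_mul]
      refine mul_le_mul_of_nonneg_left ?_ (Int.natCast_nonneg n)
      exact C.chartDiv_mono (by push_cast; linarith [Int.natCast_nonneg N])
        (by push_cast; linarith [Int.natCast_nonneg N]) P
    have hst2 := stable_stabN C (N + N) (N + N) (Nat.le_add_right N N)
    have hprodW := (NodalDatum.mem_KLat_iff hnpos hu.ne_zero hE _ _ (h' * f)).1 hprod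
    have hmem : D.redF (h' * f) ∈ Core.nodalSpace D.x₁ D.x₂ (fun _ => κ)
        (D.chartDiv₁ ((N + N : ℕ) : ℕ) ((N + N : ℕ) : ℕ))
        (D.chartDiv₂ ((N + N : ℕ) : ℕ) ((N + N : ℕ) : ℕ)) := by
      rw [← h (N + N) (N + N) hst2]
      exact ⟨h' * f, hprodW.1, hprodW.2, rfl⟩
    have h3 := ((Core.gluedAt_iff C.hF₁.deg_eq_one C.hF₂.deg_eq_one c _ _).1 (hmem.2.2 c)).2.2
    have f1 : (D.redF (h' * f)).1 = φ.1 := by
      show D.V₁.redF (h' * f) = _
      rw [D.V₁.redF_mul hh'O.1 hfO'.1, hf₁, mul_one, e1]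
    have f2 : (D.redF (h' * f)).2 = φ.2 * algebraMap k F₂ κ := by
      show D.V₂.redF (h' * f) = _
      rw [D.V₂.redF_mul hh'O.2 hfO'.2, hf₂, e2]
    rw [f1, f2, Core.valAt_mul _ (C.hF₂.deg_eq_one _) r2 ((D.x₂ c).algebraMap_mem' κ),
      Core.valAt_algebraMap, (hφval c).1, (hφval c).2, mul_one, mul_one] at h3
    rw [Pi.one_apply]
    exact mul_right_cancel₀ hκ (by rw [h3, one_mul])
  rw [hlamz] at Hsubz Heqz
  obtain ⟨H, c, hH0, hc0, hzH⟩ := hcech n hn z hKa e₁ e₂ Hsubz Heqz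
  -- `n (E + div f) = div z = n div H`
  refine ⟨H * f⁻¹, mul_ne_zero hH0 (inv_ne_zero hf0), fun P => ?_⟩
  have hord : P.ord z = (n : ℤ) * P.ord H := by
    rw [hzH, P.ord_mul ((map_ne_zero _).2 hc0) (pow_ne_zero n hH0), S18lib.Cech.ord_const, zero_add,
      S18lib.Cech.ord_pow]
  have hord' : P.ord z = (n : ℤ) * P.ord f + (n : ℤ) * E P := by
    rw [hz, hz₀, P.ord_mul haF hz₀0, S18lib.Cech.ord_const, zero_add,
      P.ord_mul (pow_ne_zero n hf0) hu.ne_zero, S18lib.Cech.ord_pow, hE]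
  rw [P.ord_mul hH0 (inv_ne_zero hf0), P.ord_inv]
  have : (n : ℤ) * E P = (n : ℤ) * (P.ord H + -P.ord f) := by
    rw [mul_add, mul_neg, ← hord, hord']
    ring
  exact mul_left_cancel₀ hnZ this

end Fermat.Agent.S59lib.Toric

end
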