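/-
S59lib / Toric / Surj  (helper8)  — Project I, block LLsq, brick NEW-3 (toric readout), part 5.

**EVERY TWIST IS THE PERIOD OF A TORIC CLASS.**  For an annulus datum `D` with the slope law, a nodal
context, `n` invertible in `k`, `n`-th roots in `L`, and the torsion counts
`|J[n]| ≥ n^{2g}`, `|Pic⁰(Fᵢ)[n]| ≤ n^{2gᵢ}`:

  for every `lam : Fin s → kˣ` with `lam c ^ n` independent of `c` there are a degree zero divisor
  `D₀` and a Kummer unit `u` with `div u = n D₀` whose twist is `κ · lam` for a constant `κ ≠ 0`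
                                                                            (`exists_toric_of_twist`).

[The period map `toricPart D.nod n → {c ≠ c₀} → μ_n(k)` is injective (`principal_of_hasTwist_const`);
the source has at least `n ^ (s - 1)` elements (`pow_le_card_toricPart`), the target at most that many.]
-/
import Fermat.Agent.S59lib.Toric.Count
import Fermat.Agent.S59lib.Toric.Period
import Fermat.Agent.LSb.Core.CechFinal

set_option autoImplicit false
set_option linter.unusedSectionVars false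

noncomputable section

namespace Fermat.Agent.S59lib.Toric

open Fermat.Agent.S18lib AlgebraicCurve Fermat.Agent.LSb Fermat.Agent.S33lib Fermat.Agent.S44lib
open Fermat.Agent.S43lib.B0 Fermat.Agent.LSc

/-- a field has at most `n` `n`-th roots of unity -/
theorem card_pow_eq_one_le (K : Type*) [Field K] {n : ℕ} (hn : 0 < n) :
    Nat.card {a : K // a ^ n = 1} ≤ n := by
  classical
  have h1 : Nat.card {a : K // a ^ n = 1} = (Polynomial.nthRootsFinset n (1 : K)).card := by
    rw [← Nat.card_eq_finsetCard]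
    refine Nat.card_congr (Equiv.subtypeEquivRight fun a => ?_)
    rw [Polynomial.mem_nthRootsFinset hn]
  rw [h1, Polynomial.nthRootsFinset_def]
  exact (Multiset.toFinset_card_le _).trans (Polynomial.card_nthRoots n 1)

instance finite_pow_eq_one (K : Type*) [Field K] {n : ℕ} [NeZero n] :
    Finite {a : K // a ^ n = 1} := by
  classical
  have : {a : K | a ^ n = 1} = ↑(Polynomial.nthRootsFinset n (1 : K)) := by
    ext a
    rw [Set.mem_ofPred_eq, Finset.mem_coe, Polynomial.mem_nthRootsFinset (NeZero.pos n)]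
  have hfin : {a : K | a ^ n = 1}.Finite := by
    rw [this]
    exact Finset.finite_toSet _
  exact hfin.to_subtype

variable {L : Type*} [Field L] {A : ValuationSubring L}
variable {F : Type*} [Field F] [Algebra L F] [HasPrincipalDivisors L F]

local notation "k" => IsLocalRing.ResidueField A

variable {F₁ F₂ : Type*} [Field F₁] [Field F₂]
variable [Algebra (IsLocalRing.ResidueField A) F₁] [Algebra (IsLocalRing.ResidueField A) F₂]
variable [HasPrincipalDivisors (IsLocalRing.ResidueField A) F₁]
  [HasPrincipalDivisors (IsLocalRing.ResidueField A) F₂]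

variable {D : Ann.AnnDatum A F F₁ F₂} {g g₁ g₂ : ℕ}

/-- **EVERY TWIST IS THE PERIOD OF A TORIC CLASS** -/
theorem exists_toric_of_twist (C : NodalCtx D.nod g g₁ g₂) (hlaw : D.SlopeLaw)
    (hne : D.nod.V₁.O ≠ D.nod.V₂.O) {n : ℕ} (hn : (n : k) ≠ 0)
    (hroot : ∀ c : L, ∃ d : L, d ^ n = c)
    (hJ : n ^ (2 * g) ≤ Nat.card (Pic0.torsion L F n))
    (h₁ : Nat.card (Pic0.torsion k F₁ n) ≤ n ^ (2 * g₁)) [Finite (Pic0.torsion k F₁ n)]
    (h₂ : Nat.card (Pic0.torsion k F₂ n) ≤ n ^ (2 * g₂)) [Finite (Pic0.torsion k F₂ n)]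
    (lam : Fin D.nod.s → k) (hlam0 : ∀ c, lam c ≠ 0) (hlam : ∀ c c', lam c ^ n = lam c' ^ n) :
    ∃ (D₀ : Divisor.degZero (K := L) (F := F)) (u : F), IsKummerUnit D.nod n u ∧
      (∀ P : Place L F, P.ord u = (n : ℤ) * (D₀ : Divisor L F) P) ∧
      ∃ κ : k, κ ≠ 0 ∧ HasTwist D.nod g₁ g₂ (D₀ : Divisor L F) (fun c => κ * lam c) := by
  classical
  have hn0 : n ≠ 0 := by
    rintro rfl
    exact hn (by simp)
  have hnpos : 0 < n := Nat.pos_of_ne_zero hn0
  have : NeZero n := ⟨hn0⟩
  obtain ⟨c₀⟩ : Nonempty (Fin D.nod.s) := ⟨⟨0, C.s_pos⟩⟩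
  -- the toric part and its count
  have hcount := pow_le_card_toricPart C hlaw hne hnpos hroot hJ h₁ h₂
  have hTfin : Finite (toricPart D.nod n) := by
    refine Nat.finite_of_card_ne_zero fun h0 => ?_
    rw [h0] at hcount
    exact absurd hcount (not_le.2 (pow_pos hnpos _))
  -- representatives
  have hrep : ∀ t : toricPart D.nod n, ∃ (D₀ : Divisor.degZero (K := L) (F := F)) (u : F),
      Pic0.mk D₀ = (t : Pic0 L F) ∧ IsKummerUnit D.nod n u ∧
        ∀ P : Place L F, P.ord u = (n : ℤ) * (D₀ : Divisor L F) P := fun t => t.2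
  choose D₀ u hmk hu hord using hrep
  have hE : ∀ t (P : Place L F), (n : ℤ) * ((D₀ t : Divisor.degZero (K := L) (F := F)) : Divisor L F) P
      = P.ord (u t) := fun t P => (hord t P).symm
  have hdeg : ∀ t, Divisor.degree ((D₀ t : Divisor.degZero (K := L) (F := F)) : Divisor L F) = 0 :=
    fun t => Divisor.mem_degZero.1 (D₀ t).2
  have htw : ∀ t, ∃ l : Fin D.nod.s → k, (∀ c, l c ≠ 0) ∧
      HasTwist D.nod g₁ g₂ ((D₀ t : Divisor.degZero (K := L) (F := F)) : Divisor L F) l :=
    fun t => exists_hasTwist C hnpos (hu t) (hE t) (hdeg t)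
  choose l hl0 hl using htw
  -- the `n`-th powers of the twist are independent of the node
  have hlpow : ∀ t c, l t c ^ n = l t c₀ ^ n := by
    intro t c
    obtain ⟨b₁, -, hb₁⟩ := (hu t).red₁
    obtain ⟨b₂, hb₂0, hb₂⟩ := (hu t).red₂
    have e1 := pow_twist C hnpos (hu t) (hE t) (hl t) hb₁ hb₂ c
    have e2 := pow_twist C hnpos (hu t) (hE t) (hl t) hb₁ hb₂ c₀
    exact mul_left_cancel₀ hb₂0 (e1.symm.trans e2)
  -- the period map
  let per : toricPart D.nod n → ({c : Fin D.nod.s // c ≠ c₀} → {a : k // a ^ n = 1}) :=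
    fun t c => ⟨l t c.1 / l t c₀, by rw [div_pow, hlpow t c.1, div_self (pow_ne_zero n (hl0 t c₀))]⟩
  have hper : ∀ t t', per t = per t' → ∀ c, l t c / l t c₀ = l t' c / l t' c₀ := by
    intro t t' h c
    by_cases hc : c = c₀
    · rw [hc, div_self (hl0 t c₀), div_self (hl0 t' c₀)]
    · exact congrArg Subtype.val (congrFun h ⟨c, hc⟩)
  have hinj : Function.Injective per := by
    intro t t' h
    have hc := hper t t' h
    -- the twist of the difference is constant
    set κ : k := l t c₀ / l t' c₀ with hκ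
    have hκ0 : κ ≠ 0 := div_ne_zero (hl0 t c₀) (hl0 t' c₀)
    have huu : IsKummerUnit D.nod n (u t * (u t')⁻¹) := kummerUnit_mul (hu t) (hu t').inv
    have hEE : ∀ P : Place L F, (n : ℤ) *
        (((D₀ t : Divisor.degZero (K := L) (F := F)) : Divisor L F) -
          ((D₀ t' : Divisor.degZero (K := L) (F := F)) : Divisor L F)) P =
        P.ord (u t * (u t')⁻¹) := by
      intro P
      rw [P.ord_mul (hu t).ne_zero (inv_ne_zero (hu t').ne_zero), P.ord_inv, hord, hord,
        Finsupp.sub_apply]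
      ring
    have hdd : Divisor.degree (((D₀ t : Divisor.degZero (K := L) (F := F)) : Divisor L F) -
        ((D₀ t' : Divisor.degZero (K := L) (F := F)) : Divisor L F)) = 0 := by
      rw [map_sub, hdeg, hdeg, sub_zero]
    obtain ⟨l'', -, hl''⟩ := exists_hasTwist C hnpos huu hEE hdd
    have hsub := HasTwist.sub_eq C (hl t) (hl t') hl''
    have hconst : l'' = fun _ => κ := by
      funext c
      have e := congrFun hsub c
      rw [Pi.mul_apply] at e
      have e2 := hc c
      rw [div_eq_div_iff (hl0 t c₀) (hl0 t' c₀)] at e2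
      rw [hκ, eq_div_iff (hl0 t' c₀)]
      apply mul_right_cancel₀ (hl0 t' c)
      rw [mul_assoc, mul_comm (l t' c₀), ← mul_assoc, ← e, e2]
      ring
    rw [hconst] at hl''
    obtain ⟨H, hH0, hH⟩ := principal_of_hasTwist_const C C.cechCoreStatement hn huu hEE hκ0 hl''
    apply Subtype.ext
    rw [← hmk t, ← hmk t', ← sub_eq_zero]
    change Pic0.mk (D₀ t - D₀ t') = 0
    rw [pic0_mk_eq_zero_iff]
    refine ⟨H, hH0, fun P => ?_⟩
    rw [AddSubgroup.coe_sub]
    exact hH P
  -- count
  have htarget : Nat.card ({c : Fin D.nod.s // c ≠ c₀} → {a : k // a ^ n = 1}) ≤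
      n ^ (D.nod.s - 1) := by
    rw [Nat.card_fun]
    have e : Nat.card {c : Fin D.nod.s // c ≠ c₀} = D.nod.s - 1 := by
      rw [Nat.card_eq_fintype_card]
      have := Set.card_ne_eq c₀
      rw [Fintype.card_fin] at this
      exact this
    rw [e]
    exact Nat.pow_le_pow_left (card_pow_eq_one_le k hnpos) _
  have hbij : Function.Bijective per :=
    hinj.bijective_of_nat_card_le (htarget.trans hcount)
  -- the given twist
  obtain ⟨t, ht⟩ := hbij.2 (fun c => ⟨lam c.1 / lam c₀, by
    rw [div_pow, hlam c.1 c₀, div_self (pow_ne_zero n (hlam0 c₀))]⟩)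
  refine ⟨D₀ t, u t, hu t, hord t, l t c₀ / lam c₀, div_ne_zero (hl0 t c₀) (hlam0 c₀), ?_⟩
  have hfun : (fun c => l t c₀ / lam c₀ * lam c) = l t := by
    funext c
    have hc : l t c / l t c₀ = lam c / lam c₀ := by
      by_cases hcc : c = c₀
      · rw [hcc, div_self (hl0 t c₀), div_self (hlam0 c₀)]
      · exact congrArg Subtype.val (congrFun ht ⟨c, hcc⟩)
    rw [div_eq_div_iff (hl0 t c₀) (hlam0 c₀)] at hc
    rw [div_mul_eq_mul_div, div_eq_iff (hlam0 c₀), hc]
    ring
  rw [hfun]
  exact hl t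

end Fermat.Agent.S59lib.Toric

end
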