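/-
S59lib / Toric / Mod  (helper8)  — Project I, block LLsq, brick NEW-3 (toric readout), part 6:
THE MODULAR INSTANCE.

Level `M q`, `q ≥ 5` prime, `q ∤ M`, `M` elliptic-free (`nuTwo M = nuThree M = 0`), `A ∣ q`, `n > 0` prime
to `q`, the concrete nodal package `Kap.modNod hqM hA` (both components `FRes A M`):

* `card_torsion_FBar`  : `|J₀(N)[n]| = n ^ (2 g)` (S27lib, count over `ℚ̄` for every `n > 0`);
* `card_torsion_FRes`  : `|Pic⁰(X₀(M)_k)[n]| = |J₀(M)[n]|` (`B0/Lift`: the reduction is bijective on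
                         prime-to-`q` torsion);
* **`exists_toric_mod`** : every `lam : nodes → kˣ` with `lam c ^ n` independent of `c` is, up to a
  constant, the twist of a Kummer unit `u` with `div u = n D₀`:  the period map
  `J₀(M q)[n]_toric → Hom(ℤ[SS]⁰, μ_n)` is SURJECTIVE (hence bijective).
-/
import Fermat.Agent.S59lib.Toric.Surj
import Fermat.Agent.S43lib.B0.Lift.Main
import Fermat.Agent.S44lib.H4.ModCoordZ
import Fermat.Agent.S44lib.M.ModInst
import Fermat.Agent.S44lib.AnnInst.Coord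
import Fermat.Agent.S27lib.Short

set_option autoImplicit false
set_option linter.unusedSectionVars false
set_option linter.style.haveILetI false

noncomputable section

namespace Fermat.Agent.S59lib.Toric

open AlgebraicCurve ModularCurve Fermat.Agent.LSb Fermat.Agent.S18lib Fermat.Agent.S44lib
open Fermat.Agent.S44lib.Kap Fermat.Agent.S37lib Fermat.Agent.S43lib.B0

local notation "Qb" => AlgebraicClosure ℚ

/-- **the torsion count of `J₀(N)`** for every `n > 0` -/
theorem card_torsion_FBar (N : ℕ) [NeZero N] {g : ℕ} (hF : IsCurveOfGenus Qb (FBar N) g) {n : ℕ}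
    (hn : 0 < n) : Nat.card (Pic0.torsion Qb (FBar N) n) = n ^ (2 * g) :=
  (S27lib.T1.t1Stmt_of_td hn (S27lib.tdBelyiStmt n g hn)) (FBar N) (HeckeInst.jB N)
    (HeckeInst.transcendental_jB N)
    (HeckeInst.finiteDimensional_adjoin N (HeckeInst.transcendental_jB N)) hF

variable {M q : ℕ} [NeZero M] [NeZero q] [hq : Fact q.Prime] {A : ValuationSubring Qb}

local notation "kA" => IsLocalRing.ResidueField A

/-- **the torsion count of the reduction**: the reduction map is a bijection on prime-to-`q`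
torsion -/
theorem card_torsion_FRes (hqM : ¬ q ∣ M) (hA : A.LiesOverPrime q) {n : ℕ} (hqn : ¬ q ∣ n) :
    Nat.card (Pic0.torsion kA (FRes A M) n) = Nat.card (Pic0.torsion Qb (FBar M) n) := by
  symm
  have hmem : ∀ t : Pic0.torsion Qb (FBar M) n,
      reductionModL A M (t : Pic0 Qb (FBar M)) ∈ Pic0.torsion kA (FRes A M) n := by
    intro t
    have h := Pic0.mem_torsion.1 t.2
    rw [Pic0.mem_torsion, ← map_zsmul, h, map_zero]
  refine Nat.card_congr (Equiv.ofBijective
    (fun t => (⟨reductionModL A M (t : Pic0 Qb (FBar M)), hmem t⟩ : Pic0.torsion kA (FRes A M) n))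
    ⟨fun t t' h => ?_, fun b => ?_⟩)
  · have hb : n • reductionModL A M (t : Pic0 Qb (FBar M)) = 0 := by
      have := Pic0.mem_torsion.1 (hmem t)
      rwa [natCast_zsmul] at this
    obtain ⟨t₀, -, huniq⟩ := Lift.existsUnique_torsion_lift_modL M A hqM hA n hqn _ hb
    have h1 : n • (t : Pic0 Qb (FBar M)) = 0 := by
      have := Pic0.mem_torsion.1 t.2
      rwa [natCast_zsmul] at this
    have h2 : n • (t' : Pic0 Qb (FBar M)) = 0 := by
      have := Pic0.mem_torsion.1 t'.2
      rwa [natCast_zsmul] at this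
    have e := congrArg (fun z : Pic0.torsion kA (FRes A M) n => (z : Pic0 kA (FRes A M))) h
    exact Subtype.ext ((huniq _ ⟨h1, rfl⟩).trans (huniq _ ⟨h2, e.symm⟩).symm)
  · have hb : n • (b : Pic0 kA (FRes A M)) = 0 := by
      have := Pic0.mem_torsion.1 b.2
      rwa [natCast_zsmul] at this
    obtain ⟨t, ht, htb⟩ := Lift.exists_torsion_lift_modL M A hqM hA n hqn _ hb
    refine ⟨⟨t, Pic0.mem_torsion.2 (by rw [natCast_zsmul]; exact ht)⟩, Subtype.ext htb⟩

/-- **EVERY TWIST IS THE PERIOD OF A TORIC CLASS OF `J₀(M q)[n]`** (`q ≥ 5`, `M` elliptic-free,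
`q ∤ n`). -/
theorem exists_toric_mod (hqM : ¬ q ∣ M) (hA : A.LiesOverPrime q) (h5 : 5 ≤ q)
    (hν2 : nuTwo M = 0) (hν3 : nuThree M = 0) {n : ℕ} (hn : 0 < n) (hqn : ¬ q ∣ n)
    (lam : Fin (modNod hqM hA).s → kA) (hlam0 : ∀ c, lam c ≠ 0)
    (hlam : ∀ c c', lam c ^ n = lam c' ^ n) :
    ∃ (D₀ : Divisor.degZero (K := Qb) (F := FBar (M * q))) (u : FBar (M * q)),
      IsKummerUnit (modNod hqM hA) n u ∧
      (∀ P : Place Qb (FBar (M * q)), P.ord u = (n : ℤ) * (D₀ : Divisor Qb (FBar (M * q))) P) ∧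
      ∃ κ : kA, κ ≠ 0 ∧ HasTwist (modNod hqM hA) (modGk hqM hA) (modGk hqM hA)
        (D₀ : Divisor Qb (FBar (M * q))) (fun c => κ * lam c) := by
  letI := modHpdK hqM hA
  haveI := modInfinite (A := A)
  -- the annulus datum
  obtain ⟨z, hz, -, -⟩ := H4.exists_unifCoord hqM hA h5 hν2 hν3
    (fun u hu => AnnInst.exists_kronLike hqM hA (modD1_isGaussOne hqM hA)
      (modD2'_isGaussTwo hqM hA) u hu)
  set D := S44lib.M.modAnn hqM hA h5 hz with hD
  have C : NodalCtx D.nod (modG M q) (modGk hqM hA) (modGk hqM hA) := modCtx hqM hA h5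
  have hlaw : D.SlopeLaw := Ann.annOfNCtx_slopeLaw _ hz _ _
  have hne : D.nod.V₁.O ≠ D.nod.V₂.O :=
    Frame.O_ne hqM hA (modD1_isGaussOne hqM hA) (modD2'_isGaussTwo hqM hA)
      (fun y => Val.wq_wq M q hq.out hqM y)
  have hroot : ∀ c : Qb, ∃ d : Qb, d ^ n = c := fun c => IsAlgClosed.exists_pow_nat_eq c hn
  -- `n` is invertible in the residue field
  haveI := Gink.charP_kRes (A := A) hA
  have hnk : (n : kA) ≠ 0 := by
    intro h0
    exact hqn ((CharP.cast_eq_zero_iff kA q n).1 h0)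
  -- the counts
  have hJ : n ^ (2 * modG M q) ≤ Nat.card (Pic0.torsion Qb (FBar (M * q)) n) :=
    (card_torsion_FBar (M * q) (modG_spec M q) hn).ge
  obtain ⟨g', hF', hFk'⟩ := G.exists_genus_of_five_le M A hqM hA
    (S37lib.B3.reductionInputsModL M A hqM hA) h5
  have hgk : modGk hqM hA = g' := RRgen.Canonical.genus_unique (modGk_spec hqM hA) hFk'
  have hk : Nat.card (Pic0.torsion kA (FRes A M) n) = n ^ (2 * modGk hqM hA) := by
    rw [card_torsion_FRes hqM hA hqn, card_torsion_FBar M hF' hn, hgk]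
  haveI : Finite (Pic0.torsion kA (FRes A M) n) :=
    Nat.finite_of_card_ne_zero (by rw [hk]; exact (pow_pos hn _).ne')
  exact exists_toric_of_twist (D := D) C hlaw hne hnk hroot hJ hk.le hk.le lam hlam0 hlam

/-- **THE TORIC COUNT AT LEVEL `M q`**: `n ^ (s - 1) ≤ |J₀(M q)[n]_toric|` (`s` = number of
supersingular nodes; `q ≥ 5`, `M` elliptic-free, `q ∤ n`). -/
theorem pow_le_card_toricPart_mod (hqM : ¬ q ∣ M) (hA : A.LiesOverPrime q) (h5 : 5 ≤ q)
    (hν2 : nuTwo M = 0) (hν3 : nuThree M = 0) {n : ℕ} (hn : 0 < n) (hqn : ¬ q ∣ n) :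
    n ^ ((modNod hqM hA).s - 1) ≤ Nat.card (toricPart (modNod hqM hA) n) := by
  letI := modHpdK hqM hA
  haveI := modInfinite (A := A)
  obtain ⟨z, hz, -, -⟩ := H4.exists_unifCoord hqM hA h5 hν2 hν3
    (fun u hu => AnnInst.exists_kronLike hqM hA (modD1_isGaussOne hqM hA)
      (modD2'_isGaussTwo hqM hA) u hu)
  set D := S44lib.M.modAnn hqM hA h5 hz with hD
  have C : NodalCtx D.nod (modG M q) (modGk hqM hA) (modGk hqM hA) := modCtx hqM hA h5
  have hlaw : D.SlopeLaw := Ann.annOfNCtx_slopeLaw _ hz _ _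
  have hne : D.nod.V₁.O ≠ D.nod.V₂.O :=
    Frame.O_ne hqM hA (modD1_isGaussOne hqM hA) (modD2'_isGaussTwo hqM hA)
      (fun y => Val.wq_wq M q hq.out hqM y)
  have hroot : ∀ c : Qb, ∃ d : Qb, d ^ n = c := fun c => IsAlgClosed.exists_pow_nat_eq c hn
  have hJ : n ^ (2 * modG M q) ≤ Nat.card (Pic0.torsion Qb (FBar (M * q)) n) :=
    (card_torsion_FBar (M * q) (modG_spec M q) hn).ge
  obtain ⟨g', hF', hFk'⟩ := G.exists_genus_of_five_le M A hqM hA
    (S37lib.B3.reductionInputsModL M A hqM hA) h5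
  have hgk : modGk hqM hA = g' := RRgen.Canonical.genus_unique (modGk_spec hqM hA) hFk'
  have hk : Nat.card (Pic0.torsion kA (FRes A M) n) = n ^ (2 * modGk hqM hA) := by
    rw [card_torsion_FRes hqM hA hqn, card_torsion_FBar M hF' hn, hgk]
  haveI : Finite (Pic0.torsion kA (FRes A M) n) :=
    Nat.finite_of_card_ne_zero (by rw [hk]; exact (pow_pos hn _).ne')
  exact pow_le_card_toricPart (D := D) C hlaw hne hn hroot hJ hk.le hk.le

end Fermat.Agent.S59lib.Toric

end
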